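import Mathlib
import Fermat.Prelude.Def_ModularCurve_ArithmeticGalois
import Fermat.Prelude.Def_ModularCurve_GenusNumerics
import Fermat.Prelude.Def_AlgebraicCurve_CanonicalDivisor

/-!
# S24: common definitions (owner: lead).  Do not edit without asking lead.
-/

set_option autoImplicit false

noncomputable section

namespace Fermat.Agent.S24

open AlgebraicCurve ModularCurve IntermediateField
open scoped MatrixGroups

/-- The constant field `ℚ̄`. -/
abbrev Qb : Type := AlgebraicClosure ℚ

/-- The function field of `X₀(N)` over `ℚ̄` (Prelude's `modularFunctionFieldBar N`) as a type. -/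
abbrev FN (N : ℕ) : Type := ↥(ModularCurve.modularFunctionFieldBar N)

theorem jBar_mem (N : ℕ) :
    coeffEmb Qb jq ∈ ModularCurve.modularFunctionFieldBar N := by
  refine coeffEmb_mem_laurentBaseChange Qb ?_
  have h := jqd_mem_full N (one_dvd N)
  rwa [qExpand_one_apply] at h

/-- The `j`-function as an element of the function field. -/
def jBar (N : ℕ) : FN N := ⟨coeffEmb Qb jq, jBar_mem N⟩

/-- The coset space `SL₂(ℤ)/Γ₀(N)` (left cosets, with the left action of `SL₂(ℤ)`). -/
abbrev Cosets (N : ℕ) : Type := SL(2, ℤ) ⧸ CongruenceSubgroup.Gamma0 N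

/-- `ψ(N)` as the number of cosets. -/
def cosetCard (N : ℕ) : ℕ := Nat.card (Cosets N)

/-- Number of orbits of the cyclic group generated by `g` on the cosets. -/
def orbCard (N : ℕ) (g : SL(2, ℤ)) : ℕ :=
  Nat.card (MulAction.orbitRel.Quotient (Subgroup.zpowers g) (Cosets N))

/-- An "order function" on a field: the restriction to nonzero elements of a (not necessarily
normalised) discrete valuation, written additively.  Example: `HahnSeries.order` on
`LaurentSeries ℂ`. -/
structure IsOrdFn {L : Type*} [Field L] (o : L → ℤ) : Prop where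
  map_one : o 1 = 0
  map_mul : ∀ a b : L, a ≠ 0 → b ≠ 0 → o (a * b) = o a + o b
  map_add : ∀ a b : L, a ≠ 0 → b ≠ 0 → a + b ≠ 0 → min (o a) (o b) ≤ o (a + b)

end Fermat.Agent.S24
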