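import Fermat.Agent.S24.Basic
import Fermat.Agent.S24.Comb.Genus

/-!
# S24, component C (combinatorics of `SL₂(ℤ)/Γ₀(N) ≅ ℙ¹(ℤ/N)`): INTERFACE.

Statements frozen (owner of statements: lead; owner of proofs: component-C team).
`Cosets N = SL(2, ℤ) ⧸ Γ₀(N)` with the left-multiplication action of `SL(2, ℤ)`;
`cosetCard N = Nat.card (Cosets N)`; `orbCard N g` = number of orbits of `⟨g⟩` on `Cosets N`.
The proofs live in `Fermat/Agent/S24/Comb/*.lean`.
-/

set_option autoImplicit false

noncomputable section

namespace Fermat.Agent.S24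

open ModularCurve
open scoped MatrixGroups

/-- The coset space is finite (Mathlib instance; recorded for convenience). -/
theorem finite_cosets (N : ℕ) [NeZero N] : Finite (Cosets N) := inferInstance

/-- `[SL₂(ℤ) : Γ₀(N)] = ψ(N)`. -/
theorem cosetCard_eq (N : ℕ) [NeZero N] : cosetCard N = dedekindPsi N :=
  Comb.index_eq N

/-- The cosets fixed by `S` are counted by `ν₂(N)`. -/
theorem card_fixedBy_S (N : ℕ) [NeZero N] :
    Nat.card (MulAction.fixedBy (Cosets N) ModularGroup.S) = nuTwo N :=
  Comb.fixS_card N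

/-- The cosets fixed by `S * T` are counted by `ν₃(N)`. -/
theorem card_fixedBy_ST (N : ℕ) [NeZero N] :
    Nat.card (MulAction.fixedBy (Cosets N) (ModularGroup.S * ModularGroup.T)) = nuThree N :=
  Comb.fixST_card N

/-- Orbits of `⟨S⟩`: `ν₂` fixed points and `(ψ - ν₂)/2` orbits of size two. -/
theorem two_mul_orbCard_S (N : ℕ) [NeZero N] :
    2 * orbCard N ModularGroup.S = cosetCard N + nuTwo N := by
  rw [Comb.two_mul_orbS, Comb.fixS_card]

/-- Orbits of `⟨S * T⟩`: `ν₃` fixed points and `(ψ - ν₃)/3` orbits of size three. -/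
theorem three_mul_orbCard_ST (N : ℕ) [NeZero N] :
    3 * orbCard N (ModularGroup.S * ModularGroup.T) = cosetCard N + 2 * nuThree N := by
  rw [Comb.three_mul_orbST, Comb.fixST_card]

/-- The number of orbits of `⟨T⟩` on the cosets is the number of cusps. -/
theorem orbCard_T (N : ℕ) [NeZero N] : orbCard N ModularGroup.T = cuspCount N :=
  Comb.orbT N

/-- The genus formula is a natural number `g`, and `2g - 2` is the Riemann–Hurwitz count
in terms of the numbers of orbits of `S`, `S*T`, `T` on the cosets. -/
theorem exists_genus_nat (N : ℕ) [NeZero N] :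
    ∃ g : ℕ, (g : ℚ) = genusFormula N ∧
      2 * (g : ℤ) - 2 =
        ((cosetCard N : ℤ) - orbCard N (ModularGroup.S * ModularGroup.T))
          + ((cosetCard N : ℤ) - orbCard N ModularGroup.S)
          - cosetCard N - orbCard N ModularGroup.T :=
  Comb.genus_nat N

end Fermat.Agent.S24
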