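import Fermat.Agent.S24.Ana.Degree
import Fermat.Agent.S24.Ana.Points
import Fermat.Agent.S24.Ana.Cusp

/-!
# S24, component B (analytic theory of the `j`-function and its conjugates).
This file only collects the sub-modules:
* `Ana/Defs.lean`   : definitions (`φ`, `Jfun`, `coordRing`, `conjFun`, `HasTExp`, `rho`)
* `Ana/JFacts.lean` : analytic facts about `j`
* `Ana/Base.lean`   : the conjugate evaluation maps
* `Ana/Degree.lean` : `jBar_transcendental`, `finiteDimensional_FN`, `finrank_FN`
* `Ana/Points.lean` : `card_places_generic`, `card_places_zero`, `card_places_1728`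
* `Ana/Cusp.lean`   : `card_places_infty`
-/
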