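import Fermat.Agent.S24.Alg
import Fermat.Agent.S24.Comb
import Fermat.Agent.S24.Ana

/-!
# S24: final assembly (owner: lead).
-/

set_option autoImplicit false

noncomputable section

namespace Fermat.Agent.S24

open AlgebraicCurve ModularCurve IntermediateField
open scoped MatrixGroups

theorem genus_FN (N : ℕ) [NeZero N]
    [AlgebraicCurve.HasCanonicalDivisor (K := AlgebraicClosure ℚ)
      (F := ↥(ModularCurve.modularFunctionFieldBar N))] :
    (AlgebraicCurve.genus (AlgebraicClosure ℚ) ↥(ModularCurve.modularFunctionFieldBar N) : ℚ)
      = ModularCurve.genusFormula N := by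
  classical
  obtain ⟨g, hgQ, hg⟩ := exists_genus_nat N
  have hx := jBar_transcendental N
  have hfin := finiteDimensional_FN N
  have hn := finrank_FN N
  have hne : (0 : Qb) ≠ 1728 := by norm_num
  have key : genus Qb (FN N) = g := by
    refine genus_eq_of_counts (K := Qb) (F := FN N) (jBar N) hx hfin ({0, 1728} : Finset Qb)
      ?_ g ?_
    · intro c hc
      have h0 : c ≠ 0 := fun h => hc (by simp [h])
      have h1 : c ≠ 1728 := fun h => hc (by simp [h])
      exact ord_eq_one_of_card_eq (jBar N) hx hfin c
        ((card_places_generic N c h0 h1).trans hn.symm)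
    · rw [Finset.sum_pair hne, card_places_zero, card_places_1728, card_places_infty, hn, hg]
  rw [← hgQ]
  exact_mod_cast key

end Fermat.Agent.S24
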