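import Fermat.Agent.S24.Basic
import Fermat.Agent.S24.Alg.Genus
import Fermat.Agent.S24.Alg.Counting

/-!
# S24, component A (algebraic function-field layer): INTERFACE.

Statements are frozen (owner of statements: lead; owner of proofs: component-A team).
General setting: `K` algebraically closed of characteristic 0, `F/K` a field, `x ∈ F`
transcendental over `K` with `F` finite over `K(x)`.
-/

set_option autoImplicit false

noncomputable section

namespace Fermat.Agent.S24

open AlgebraicCurve IntermediateField KaehlerDifferential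

/-- **Riemann–Hurwitz for the Prelude genus.**  If `x` is unramified outside the finite set
`S ⊆ K` of finite branch values, then the Prelude genus of `F/K` is the `g` given by
`2g - 2 = ∑_{c ∈ S} (n - r_c) - n - r_∞`, where `n = [F : K(x)]`, `r_c` is the number of places
where `x - c` vanishes and `r_∞` the number of poles of `x`. -/
theorem genus_eq_of_counts {K F : Type*} [Field K] [IsAlgClosed K] [CharZero K] [Field F]
    [Algebra K F] [HasCanonicalDivisor (K := K) (F := F)]
    (x : F) (hx : Transcendental K x) (hfin : FiniteDimensional K⟮x⟯ F)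
    (S : Finset K)
    (hunr : ∀ c : K, c ∉ S → ∀ v : Place K F,
      0 < v.ord (x - algebraMap K F c) → v.ord (x - algebraMap K F c) = 1)
    (g : ℕ)
    (hg : 2 * (g : ℤ) - 2 =
      ∑ c ∈ S, ((Module.finrank K⟮x⟯ F : ℤ)
          - (Nat.card {v : Place K F // 0 < v.ord (x - algebraMap K F c)} : ℤ))
        - (Module.finrank K⟮x⟯ F : ℤ) - (Nat.card {v : Place K F // v.ord x < 0} : ℤ)) :
    genus K F = g := by
  have hx' : Alg.IsCoord K x := ⟨hx, hfin⟩
  obtain ⟨hfinS, hsum⟩ := Alg.finsum_ordDifferential_D hx' S hunr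
  exact Alg.genus_eq_of_finsum hx' g hfinS (hsum.trans hg.symm)

/-- If there are `n = [F : K(x)]` places over `x = c`, then `x` is unramified over `c`. -/
theorem ord_eq_one_of_card_eq {K F : Type*} [Field K] [IsAlgClosed K] [CharZero K] [Field F]
    [Algebra K F] (x : F) (hx : Transcendental K x) (hfin : FiniteDimensional K⟮x⟯ F) (c : K)
    (hcard : Nat.card {v : Place K F // 0 < v.ord (x - algebraMap K F c)}
      = Module.finrank K⟮x⟯ F) :
    ∀ v : Place K F, 0 < v.ord (x - algebraMap K F c) → v.ord (x - algebraMap K F c) = 1 := by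
  have hx' : Alg.IsCoord K x := ⟨hx, hfin⟩
  refine Alg.ord_eq_one_of_card_eq' (hx'.sub_algebraMap c) ?_
  rw [hcard, Alg.finrank_eq_of_adjoin_eq (Alg.adjoin_sub_algebraMap x c)]

/-- **Counting places via embeddings into a discretely valued field.**
`y` is the local parameter downstairs (`y = x - c` or `y = x⁻¹`).  `τ i` (`i : I`) are
`n = [F : K(x)]` pairwise distinct embeddings of `F` into a field `L` with an order function
`o`, which all agree on `K(x)`, with `o (τ i y) = m₀ > 0` and `o (τ i a) = 0` for nonzero
constants `a`.  `r` is an equivalence relation on `I` ("blocks") such that equivalent indices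
induce the same order function on `F`, and such that `m₀` divides `|block of i| * o (τ i f)`
for all `f ≠ 0`.  Then the places of `F` at which `y` vanishes are in bijection with the blocks;
in particular their number is the number of blocks. -/
theorem card_places_eq_card_blocks {K F : Type*} [Field K] [IsAlgClosed K] [CharZero K] [Field F]
    [Algebra K F] (x : F) (hx : Transcendental K x) (hfin : FiniteDimensional K⟮x⟯ F)
    (y : F) (hy : (∃ c : K, y = x - algebraMap K F c) ∨ y = x⁻¹)
    {L : Type*} [Field L] (o : L → ℤ) (ho : IsOrdFn o)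
    {I : Type*} [Finite I] (τ : I → F →+* L)
    (hτ_inj : Function.Injective τ)
    (hcard : Nat.card I = Module.finrank K⟮x⟯ F)
    (hτx : ∀ i i' : I, τ i x = τ i' x)
    (hτK : ∀ (i i' : I) (a : K), τ i (algebraMap K F a) = τ i' (algebraMap K F a))
    (m₀ : ℕ) (hm₀ : 0 < m₀)
    (hy_ord : ∀ i : I, o (τ i y) = m₀)
    (hK_ord : ∀ (i : I) (a : K), a ≠ 0 → o (τ i (algebraMap K F a)) = 0)
    (r : Setoid I)
    (h_same : ∀ i i' : I, r i i' → ∀ f : F, o (τ i f) = o (τ i' f))
    (h_div : ∀ (i : I) (f : F), f ≠ 0 →
      (m₀ : ℤ) ∣ (Nat.card {i' : I // r i i'} : ℤ) * o (τ i f)) :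
    Nat.card {v : Place K F // 0 < v.ord y} = Nat.card (Quotient r) := by
  have hx' : Alg.IsCoord K x := ⟨hx, hfin⟩
  rcases hy with ⟨c, rfl⟩ | rfl
  · refine Alg.card_places_eq_card_blocks' (hx'.sub_algebraMap c) o ho τ hτ_inj ?_ ?_ hτK m₀ hm₀
      hy_ord hK_ord r h_same h_div
    · rw [hcard, Alg.finrank_eq_of_adjoin_eq (Alg.adjoin_sub_algebraMap x c)]
    · intro i i'
      rw [map_sub, map_sub, hτx i i', hτK i i' c]
  · refine Alg.card_places_eq_card_blocks' hx'.inv o ho τ hτ_inj ?_ ?_ hτK m₀ hm₀
      hy_ord hK_ord r h_same h_div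
    · rw [hcard, Alg.finrank_eq_of_adjoin_eq (Alg.adjoin_inv x)]
    · intro i i'
      rw [map_inv₀, map_inv₀, hτx i i']

end Fermat.Agent.S24
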